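import Fermat.Agent.S18.RED5669.Distinct
import Fermat.Agent.S28.RedIndep
import Fermat.Agent.S28.QRed.Core

/-!
# S18 / RED (helper5669): the function field in any characteristic prime to `N`

For a field `k` with `N ≠ 0` in `k` and a ring homomorphism `π : ℤ[ζ_N, 1/N] → k`:
* `yUnit k N ∈ k(j, j_N)` (`yUnit_mem_adjoin`), hence `yUnit k N ∈ modularFunctionFieldFullC k N`;
* `j(q^e) ∈ k(j, j_N)` for `e ∣ N`, hence `modularFunctionFieldFullC k N = k(j, j_N)`.

Proof: Lagrange interpolation on the `ψ(N)` pairwise distinct reduced conjugates of `j_N`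
(`Jcusp_reduced_injective`), whose symmetric expressions are polynomials in `j`.
-/

set_option autoImplicit false

noncomputable section

namespace Fermat.Agent.S18.RED5669

open Fermat.Agent.S28 ModularCurve Polynomial CongruenceSubgroup IntermediateField
open scoped MatrixGroups

section Lagrange

variable {S : Type*} [CommRing S] {ι : Type*} [Fintype ι] [DecidableEq ι]

theorem eval_lagrange_sum (a b : ι → S) (v : ι) :
    (∑ u, C (b u) * ∏ u' ∈ Finset.univ.erase u, (X - C (a u'))).eval (a v) =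
      b v * ∏ u' ∈ Finset.univ.erase v, (a v - a u') := by
  rw [Polynomial.eval_finset_sum, Finset.sum_eq_single v]
  · simp [Polynomial.eval_prod]
  · intro u _ huv
    rw [Polynomial.eval_mul, Polynomial.eval_prod,
      Finset.prod_eq_zero (i := v) (Finset.mem_erase.mpr ⟨Ne.symm huv, Finset.mem_univ v⟩)
        (by simp), mul_zero]
  · intro h
    exact absurd (Finset.mem_univ v) h

end Lagrange

theorem eval_mem_of_mem_lifts {k : Type*} [Field k] (T : LaurentSeries k)
    (F' : Subalgebra k (LaurentSeries k)) (hT : T ∈ F') {x : LaurentSeries k} (hx : x ∈ F')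
    {P : (LaurentSeries k)[X]}
    (hP : P ∈ Polynomial.lifts ((Polynomial.aeval (R := k) T).toRingHom)) : P.eval x ∈ F' := by
  obtain ⟨p, rfl⟩ := (Polynomial.mem_lifts _).mp hP
  rw [Polynomial.eval_map, Polynomial.eval₂_eq_sum_range]
  refine Subalgebra.sum_mem _ fun i _ => Subalgebra.mul_mem _ ?_ (Subalgebra.pow_mem _ hx i)
  show (Polynomial.aeval T) (p.coeff i) ∈ F'
  have h := Subalgebra.aeval_coe F' ⟨T, hT⟩ (p.coeff i)
  rw [h]
  exact Subtype.coe_prop _

section Main

variable (N : ℕ) [NeZero N]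

theorem coeffMap_Ycusp_idx0 {k : Type*} [Field k] (π : RN N →+* k) :
    coeffMap π (Ycusp N (cosetRep N (idx0 N)) : LaurentSeries (RN N)) =
      qExpand k N (yUnit k N) := by
  rw [Ycusp_base N _ (dvd_of_mem_Gamma0 N (cosetRep_idx0_mem N)), coeffMap_qExpand,
    QRed.coeffMap_yUnit]

theorem coeffMap_Jcusp_idx0 {k : Type*} [Field k] (π : RN N →+* k) (d : ℕ) [NeZero d]
    (hd : d ∣ N) :
    coeffMap π (Jcusp N (cosetRep N (idx0 N)) d) = qExpand k N (qExpand k d (jqModC k)) := by
  rw [Jcusp_base N _ (dvd_of_mem_Gamma0 N (cosetRep_idx0_mem N)) d hd, coeffMap_qExpand,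
    coeffMap_qExpand, coeffMap_jqModC]

/-- `k(j(t^N), j(t^(N²)))` inside `k((t))`. -/
def K1t (k : Type*) [Field k] : IntermediateField k (LaurentSeries k) :=
  IntermediateField.adjoin k {jt k N, qExpand k N (qExpand k N (jqModC k))}

/-- `k(j, j_N)` inside `k((q))`. -/
def K1 (k : Type*) [Field k] : IntermediateField k (LaurentSeries k) :=
  IntermediateField.adjoin k {jqModC k, qExpand k N (jqModC k)}

theorem K1t_eq_map (k : Type*) [Field k] : K1t N k = (K1 N k).map (qExpandAlgHomC k N) := by
  rw [K1, IntermediateField.adjoin_map, K1t]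
  congr 1
  rw [Set.image_pair]
  rfl

theorem K1_le_full (k : Type*) [Field k] : K1 N k ≤ modularFunctionFieldFullC k N := by
  rw [K1, IntermediateField.adjoin_le_iff]
  rintro x (rfl | rfl)
  · exact jqModC_mem_full k N
  · exact jqModCd_mem_full k N (dvd_refl N)

/-- Key step: Lagrange interpolation on the distinct reduced conjugates of `j_N`. -/
theorem coeffMap_mem_K1t {k : Type*} [Field k] (π : RN N →+* k) (hNk : (N : k) ≠ 0)
    [Fintype (Idx N)] [DecidableEq (Idx N)] (g' : Idx N → LaurentSeries (RN N))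
    (hL : ∑ u : Idx N, C (g' u) *
        ∏ u' ∈ Finset.univ.erase u, (X - C (Jcusp N (cosetRep N u') N)) ∈
      Polynomial.lifts ((Polynomial.aeval (R := RN N) (jt (RN N) N)).toRingHom)) :
    coeffMap π (g' (idx0 N)) ∈ K1t N k := by
  set a : Idx N → LaurentSeries k := fun u => coeffMap π (Jcusp N (cosetRep N u) N) with ha
  set b : Idx N → LaurentSeries k := fun u => coeffMap π (g' u) with hb
  have hainj : Function.Injective a := fun u u' h => Jcusp_reduced_injective N π hNk u u' h
  have hMb : ∑ u, C (b u) * ∏ u' ∈ Finset.univ.erase u, (X - C (a u')) ∈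
      Polynomial.lifts ((Polynomial.aeval (R := k) (jt k N)).toRingHom) := by
    have h := RedIndep.map_mem_lifts π N _ hL
    simpa only [Polynomial.map_sum, Polynomial.map_mul, Polynomial.map_prod, Polynomial.map_sub,
      Polynomial.map_X, Polynomial.map_C] using h
  set c1 : Idx N → LaurentSeries k := fun _ => coeffMap π (1 : LaurentSeries (RN N)) with hc1
  have hM1 : ∑ u, C (c1 u) * ∏ u' ∈ Finset.univ.erase u, (X - C (a u')) ∈
      Polynomial.lifts ((Polynomial.aeval (R := k) (jt k N)).toRingHom) := by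
    have h := RedIndep.map_mem_lifts π N _ (lagrange_oneJ_x N N (dvd_refl N))
    simpa only [Polynomial.map_sum, Polynomial.map_mul, Polynomial.map_prod, Polynomial.map_sub,
      Polynomial.map_X, Polynomial.map_C] using h
  have hjt : jt k N ∈ (K1t N k).toSubalgebra :=
    IntermediateField.subset_adjoin k _ (Set.mem_insert _ _)
  have ha0 : a (idx0 N) ∈ (K1t N k).toSubalgebra := by
    have e : a (idx0 N) = qExpand k N (qExpand k N (jqModC k)) :=
      coeffMap_Jcusp_idx0 N π N (dvd_refl N)
    rw [e]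
    exact IntermediateField.subset_adjoin k _ (Set.mem_insert_of_mem _ rfl)
  have h1 := eval_mem_of_mem_lifts (jt k N) (K1t N k).toSubalgebra hjt ha0 hMb
  have h2 := eval_mem_of_mem_lifts (jt k N) (K1t N k).toSubalgebra hjt ha0 hM1
  rw [eval_lagrange_sum] at h1 h2
  rw [hc1, map_one, one_mul] at h2
  have hD : ∏ u' ∈ Finset.univ.erase (idx0 N), (a (idx0 N) - a u') ≠ 0 := by
    rw [Finset.prod_ne_zero_iff]
    intro u' hu'
    rw [sub_ne_zero]
    intro h
    exact (Finset.ne_of_mem_erase hu') (hainj h).symm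
  have h3 : b (idx0 N) = (b (idx0 N) * ∏ u' ∈ Finset.univ.erase (idx0 N), (a (idx0 N) - a u')) /
      ∏ u' ∈ Finset.univ.erase (idx0 N), (a (idx0 N) - a u') := by
    rw [mul_div_assoc, div_self hD, mul_one]
  show b (idx0 N) ∈ K1t N k
  rw [h3]
  exact (K1t N k).div_mem h1 h2

/-- `y ∈ k(j, j_N)`. -/
theorem yUnit_mem_K1 {k : Type*} [Field k] (π : RN N →+* k) (hNk : (N : k) ≠ 0) :
    (yUnit k N : LaurentSeries k) ∈ K1 N k := by
  classical
  letI : Fintype (Idx N) := @Fintype.ofFinite _ (finite_Idx N)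
  have h := coeffMap_mem_K1t N π hNk (fun u => (Ycusp N (cosetRep N u) : LaurentSeries (RN N)))
    (lagrange_YJ_x N N (dvd_refl N))
  rw [coeffMap_Ycusp_idx0, K1t_eq_map, IntermediateField.mem_map] at h
  obtain ⟨z, hz, hzy⟩ := h
  have : z = (yUnit k N : LaurentSeries k) := qExpand_injective N hzy
  rwa [this] at hz

/-- `j(q^e) ∈ k(j, j_N)` for `e ∣ N`. -/
theorem jd_mem_K1 {k : Type*} [Field k] (π : RN N →+* k) (hNk : (N : k) ≠ 0) (e : ℕ) [NeZero e]
    (he : e ∣ N) : qExpand k e (jqModC k) ∈ K1 N k := by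
  classical
  letI : Fintype (Idx N) := @Fintype.ofFinite _ (finite_Idx N)
  have h := coeffMap_mem_K1t N π hNk (fun u => Jcusp N (cosetRep N u) e)
    (lagrange_JJ_x N N (dvd_refl N) e he)
  rw [coeffMap_Jcusp_idx0 N π e he, K1t_eq_map, IntermediateField.mem_map] at h
  obtain ⟨z, hz, hzy⟩ := h
  have : z = qExpand k e (jqModC k) := qExpand_injective N hzy
  rwa [this] at hz

/-- The function field is generated by `j` and `j_N`. -/
theorem full_eq_K1 {k : Type*} [Field k] (π : RN N →+* k) (hNk : (N : k) ≠ 0) :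
    modularFunctionFieldFullC k N = K1 N k := by
  refine le_antisymm ?_ (K1_le_full N k)
  rw [modularFunctionFieldFullC, IntermediateField.adjoin_le_iff]
  rintro x ⟨d, hne, hd, rfl⟩
  haveI := hne
  exact jd_mem_K1 N π hNk d hd

/-- `y` lies in the function field `k(j(q^d) : d ∣ N)`. -/
theorem yUnit_mem_full {k : Type*} [Field k] (π : RN N →+* k) (hNk : (N : k) ≠ 0) :
    (yUnit k N : LaurentSeries k) ∈ modularFunctionFieldFullC k N :=
  K1_le_full N k (yUnit_mem_K1 N π hNk)

end Main

end Fermat.Agent.S18.RED5669
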