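import Fermat.Agent.S18.RED.Defs

/-!
# S18 / RED (helper5669): calculus of the Gauss reduction relation `IsRedOf` (generic)
-/

set_option autoImplicit false

noncomputable section

namespace Fermat.Agent.S18.RED5669

open ModularCurve

section Generic

variable {L : Type*} [Field L] (A : ValuationSubring L)

theorem gen_injective : Function.Injective (coeffMap A.subtype) := by
  intro x y h
  ext n
  have h1 := congrArg (fun z => z.coeff n) h
  simp only [coeffMap_coeff] at h1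
  exact h1

theorem coeffMap_C {R S : Type*} [CommRing R] [CommRing S] (f : R →+* S) (a : R) :
    coeffMap f (HahnSeries.C a) = HahnSeries.C (f a) := by
  rw [HahnSeries.C_apply, HahnSeries.C_apply, coeffMap_single]

theorem gen_C (a : A) : coeffMap A.subtype (HahnSeries.C a) = HahnSeries.C (a : L) :=
  coeffMap_C A.subtype a

theorem red_C (a : A) : coeffMap (IsLocalRing.residue A) (HahnSeries.C a) =
    HahnSeries.C (IsLocalRing.residue A a) :=
  coeffMap_C (IsLocalRing.residue A) a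

/-- an element of `L` not in `A` has inverse in the maximal ideal -/
theorem inv_mem_maximalIdeal_of_not_mem {c : L} (hc : c ∉ A) :
    ∃ hd : c⁻¹ ∈ A, (⟨c⁻¹, hd⟩ : A) ∈ IsLocalRing.maximalIdeal A := by
  have h1 : ¬ A.valuation c ≤ 1 := fun h => hc ((A.valuation_le_one_iff c).mp h)
  have h2 : 1 < A.valuation c := not_le.mp h1
  have h3 : A.valuation c⁻¹ < 1 := by
    rw [map_inv₀]
    exact inv_lt_one_of_one_lt₀ h2
  have hd : c⁻¹ ∈ A := (A.valuation_le_one_iff _).mp h3.le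
  exact ⟨hd, (A.valuation_lt_one_iff ⟨c⁻¹, hd⟩).mpr h3⟩

theorem isRedOf_coeffMap (y : LaurentSeries A) :
    IsRedOf A (coeffMap A.subtype y) (coeffMap (IsLocalRing.residue A) y) :=
  ⟨y, 1, by rw [map_one]; exact one_ne_zero, by rw [map_one, mul_one], by rw [map_one, mul_one]⟩

variable {A}

theorem IsRedOf.unique' {x : LaurentSeries L} {w w' : LaurentSeries (IsLocalRing.ResidueField A)}
    (h : IsRedOf A x w) (h' : IsRedOf A x w') : w = w' := by
  obtain ⟨y₁, y₂, h0, hx, hw⟩ := h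
  obtain ⟨z₁, z₂, g0, gx, gw⟩ := h'
  have e1 : y₁ * z₂ = z₁ * y₂ := by
    apply gen_injective A
    rw [map_mul, map_mul, ← hx, ← gx]
    ring
  have e2 := congrArg (coeffMap (IsLocalRing.residue A)) e1
  rw [map_mul, map_mul, ← hw, ← gw] at e2
  have e3 : (w - w') * (coeffMap (IsLocalRing.residue A) y₂ * coeffMap (IsLocalRing.residue A) z₂) = 0 := by
    linear_combination e2
  rcases mul_eq_zero.mp e3 with e4 | e4
  · exact sub_eq_zero.mp e4
  · exact absurd e4 (mul_ne_zero h0 g0)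

theorem IsRedOf.add' {x x' : LaurentSeries L} {w w' : LaurentSeries (IsLocalRing.ResidueField A)}
    (h : IsRedOf A x w) (h' : IsRedOf A x' w') : IsRedOf A (x + x') (w + w') := by
  obtain ⟨y₁, y₂, h0, hx, hw⟩ := h
  obtain ⟨z₁, z₂, g0, gx, gw⟩ := h'
  refine ⟨y₁ * z₂ + z₁ * y₂, y₂ * z₂, ?_, ?_, ?_⟩
  · rw [map_mul]; exact mul_ne_zero h0 g0
  · rw [map_add, map_mul, map_mul, map_mul, ← hx, ← gx]; ring
  · rw [map_add, map_mul, map_mul, map_mul, ← hw, ← gw]; ring

theorem IsRedOf.mul' {x x' : LaurentSeries L} {w w' : LaurentSeries (IsLocalRing.ResidueField A)}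
    (h : IsRedOf A x w) (h' : IsRedOf A x' w') : IsRedOf A (x * x') (w * w') := by
  obtain ⟨y₁, y₂, h0, hx, hw⟩ := h
  obtain ⟨z₁, z₂, g0, gx, gw⟩ := h'
  refine ⟨y₁ * z₁, y₂ * z₂, ?_, ?_, ?_⟩
  · rw [map_mul]; exact mul_ne_zero h0 g0
  · rw [map_mul, map_mul, ← hx, ← gx]; ring
  · rw [map_mul, map_mul, ← hw, ← gw]; ring

theorem IsRedOf.neg' {x : LaurentSeries L} {w : LaurentSeries (IsLocalRing.ResidueField A)}
    (h : IsRedOf A x w) : IsRedOf A (-x) (-w) := by
  obtain ⟨y₁, y₂, h0, hx, hw⟩ := h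
  refine ⟨-y₁, y₂, h0, ?_, ?_⟩
  · rw [map_neg, ← hx]; ring
  · rw [map_neg, ← hw]; ring

theorem IsRedOf.inv' {x : LaurentSeries L} {w : LaurentSeries (IsLocalRing.ResidueField A)}
    (h : IsRedOf A x w) (hw0 : w ≠ 0) : IsRedOf A x⁻¹ w⁻¹ := by
  obtain ⟨y₁, y₂, h0, hx, hw⟩ := h
  have h1 : coeffMap (IsLocalRing.residue A) y₁ ≠ 0 := by
    rw [← hw]; exact mul_ne_zero hw0 h0
  have hx0 : x ≠ 0 := by
    rintro rfl
    rw [zero_mul] at hx
    have : y₁ = 0 := gen_injective A (by rw [← hx, map_zero])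
    exact h1 (by rw [this, map_zero])
  refine ⟨y₂, y₁, h1, ?_, ?_⟩
  · rw [← hx, ← mul_assoc, inv_mul_cancel₀ hx0, one_mul]
  · rw [← hw, ← mul_assoc, inv_mul_cancel₀ hw0, one_mul]

theorem IsRedOf.const_mem' {c : L} {x : LaurentSeries L}
    {w w' : LaurentSeries (IsLocalRing.ResidueField A)} (h : IsRedOf A x w) (hw0 : w ≠ 0)
    (h' : IsRedOf A (HahnSeries.C c * x) w') : c ∈ A := by
  by_contra hc
  obtain ⟨hd, hdm⟩ := inv_mem_maximalIdeal_of_not_mem A hc
  have hc0 : c ≠ 0 := fun h0 => hc (h0 ▸ A.zero_mem)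
  obtain ⟨y₁, y₂, h0, hx, hw⟩ := h
  obtain ⟨z₁, z₂, g0, gx, gw⟩ := h'
  have h1 : coeffMap (IsLocalRing.residue A) y₁ ≠ 0 := by
    rw [← hw]; exact mul_ne_zero hw0 h0
  have e1 : y₁ * z₂ = HahnSeries.C (⟨c⁻¹, hd⟩ : A) * z₁ * y₂ := by
    apply gen_injective A
    rw [map_mul, map_mul, map_mul, gen_C, ← hx, ← gx]
    have hCC : (HahnSeries.C c⁻¹ : LaurentSeries L) * HahnSeries.C c = 1 := by
      rw [← map_mul, inv_mul_cancel₀ hc0, map_one]
    calc x * coeffMap A.subtype y₂ * coeffMap A.subtype z₂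
        = ((HahnSeries.C c⁻¹ : LaurentSeries L) * HahnSeries.C c) *
            (x * coeffMap A.subtype y₂ * coeffMap A.subtype z₂) := by rw [hCC, one_mul]
      _ = HahnSeries.C c⁻¹ * (HahnSeries.C c * x * coeffMap A.subtype z₂) *
            coeffMap A.subtype y₂ := by ring
  have e2 := congrArg (coeffMap (IsLocalRing.residue A)) e1
  rw [map_mul, map_mul, map_mul, red_C, (IsLocalRing.residue_eq_zero_iff _).mpr hdm, map_zero,
    zero_mul, zero_mul] at e2
  exact (mul_ne_zero h1 g0) e2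

theorem IsRedOf.const_mem_maximalIdeal' {c : L} {x : LaurentSeries L}
    {w : LaurentSeries (IsLocalRing.ResidueField A)} (h : IsRedOf A x w) (hw0 : w ≠ 0)
    (h' : IsRedOf A (HahnSeries.C c * x) 0) :
    ∃ hc : c ∈ A, (⟨c, hc⟩ : A) ∈ IsLocalRing.maximalIdeal A := by
  have hc : c ∈ A := IsRedOf.const_mem' h hw0 h'
  refine ⟨hc, ?_⟩
  obtain ⟨y₁, y₂, h0, hx, hw⟩ := h
  obtain ⟨z₁, z₂, g0, gx, gw⟩ := h'
  have h1 : coeffMap (IsLocalRing.residue A) y₁ ≠ 0 := by
    rw [← hw]; exact mul_ne_zero hw0 h0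
  rw [zero_mul] at gw
  have e1 : HahnSeries.C (⟨c, hc⟩ : A) * y₁ * z₂ = z₁ * y₂ := by
    apply gen_injective A
    rw [map_mul, map_mul, map_mul, gen_C, ← hx, ← gx]
    ring
  have e2 := congrArg (coeffMap (IsLocalRing.residue A)) e1
  rw [map_mul, map_mul, map_mul, red_C, ← gw, zero_mul] at e2
  rcases mul_eq_zero.mp e2 with e3 | e3
  · rcases mul_eq_zero.mp e3 with e4 | e4
    · rw [← IsLocalRing.residue_eq_zero_iff]
      have : (HahnSeries.C (IsLocalRing.residue A ⟨c, hc⟩) :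
          LaurentSeries (IsLocalRing.ResidueField A)) = HahnSeries.C 0 := by rw [e4, map_zero]
      exact HahnSeries.C_injective this
    · exact absurd e4 h1
  · exact absurd e3 g0

end Generic

end Fermat.Agent.S18.RED5669
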