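import Fermat.Agent.S18.RED5669.Rel
import Fermat.Agent.S18.RED5669.CharAlg
import Fermat.Agent.S18.RED5669.RedOf

/-!
# S18 / RED (helper5669): the Gauss normal form on `ℚ̄(X₀(N))` and its consequences

`A ⊆ ℚ̄` a valuation ring over `ℓ ∤ N`, `k` its residue field.  Every nonzero `f ∈ ℚ̄(X₀(N))`
satisfies `f · z₂ = c · z₁` with `z₁ = Σ_{i<n} p_i(j) y^i`, `z₂ = d(j)` (`p_i, d ∈ A[X]` with nonzero
reductions): `key_form`.  Consequences: the Gauss reduction of an element of `ℚ̄(X₀(N))` lies in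
`k(X₀(N))`, admissibility is automatic, the hypothesis `hGauss` of `core`, surjectivity.
-/

set_option autoImplicit false

noncomputable section

namespace Fermat.Agent.S18.RED5669

open Fermat.Agent.S28 ModularCurve Polynomial IntermediateField

/-! ### Normalisation of a finite family of polynomials over a valuation ring -/

section Normalize

variable {L : Type*} [Field L] (A : ValuationSubring L)

/-- A finite family of polynomials over `L`, not all zero, is a constant times a family of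
polynomials over `A` whose reductions are not all zero. -/
theorem exists_normalize_family {ι : Type*} [Fintype ι] (p : ι → L[X]) (hp : ∃ i, p i ≠ 0) :
    ∃ (c : L) (p' : ι → A[X]), c ≠ 0 ∧ (∀ i, p i = C c * (p' i).map A.subtype) ∧
      ∃ i, (p' i).map (IsLocalRing.residue A) ≠ 0 := by
  classical
  let S : Finset (Σ _ : ι, ℕ) := Finset.univ.sigma (fun i => (p i).support)
  have hS : S.Nonempty := by
    obtain ⟨i, hi⟩ := hp
    obtain ⟨m, hm⟩ := Polynomial.support_nonempty.mpr hi
    exact ⟨⟨i, m⟩, Finset.mem_sigma.mpr ⟨Finset.mem_univ _, hm⟩⟩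
  obtain ⟨⟨i₀, m₀⟩, h0mem, hmax⟩ :=
    Finset.exists_max_image S (fun s => A.valuation ((p s.1).coeff s.2)) hS
  set c := (p i₀).coeff m₀ with hc
  have hc0 : c ≠ 0 := Polynomial.mem_support_iff.mp (Finset.mem_sigma.mp h0mem).2
  have hvc : 0 < A.valuation c := zero_lt_iff.mpr ((_root_.map_ne_zero _).mpr hc0)
  have hmem : ∀ i m, c⁻¹ * (p i).coeff m ∈ A := by
    intro i m
    rw [← A.valuation_le_one_iff, map_mul, map_inv₀]
    by_cases h : (p i).coeff m = 0
    · rw [h, map_zero, mul_zero]; exact zero_le_one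
    · have h1 := hmax ⟨i, m⟩
        (Finset.mem_sigma.mpr ⟨Finset.mem_univ _, Polynomial.mem_support_iff.mpr h⟩)
      rw [inv_mul_le_iff₀ hvc, mul_one]
      exact h1
  have hlift : ∀ i, C c⁻¹ * p i ∈ Polynomial.lifts A.subtype := by
    intro i
    rw [Polynomial.lifts_iff_coeff_lifts]
    intro m
    rw [Polynomial.coeff_C_mul]
    exact ⟨⟨_, hmem i m⟩, rfl⟩
  choose p' hp' using fun i => (Polynomial.mem_lifts _).mp (hlift i)
  refine ⟨c, p', hc0, ?_, i₀, ?_⟩
  · intro i
    rw [hp' i, ← mul_assoc, ← C_mul, mul_inv_cancel₀ hc0, C_1, one_mul]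
  · intro h
    have h1 : ((p' i₀).map A.subtype).coeff m₀ = 1 := by
      rw [hp' i₀, Polynomial.coeff_C_mul, ← hc, inv_mul_cancel₀ hc0]
    rw [Polynomial.coeff_map] at h1
    have h2 : (p' i₀).coeff m₀ = 1 := Subtype.ext h1
    have h3 := congrArg (fun q => q.coeff m₀) h
    simp only [Polynomial.coeff_map, h2, map_one, Polynomial.coeff_zero] at h3
    exact one_ne_zero h3

end Normalize

/-! ### Independence of the powers of `y` over `k[j]` -/

section Indep

variable (N : ℕ) [NeZero N]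

theorem qExpand_aeval_jq {k : Type*} [Field k] (p : k[X]) :
    qExpand k N (aeval (jqModC k) p) = aeval (jt k N) p := by
  have hcomp : (qExpand k N).comp ((aeval (R := k) (jqModC k)).toRingHom) =
      (aeval (R := k) (jt k N)).toRingHom := by
    apply Polynomial.ringHom_ext
    · intro a
      simp only [RingHom.comp_apply, AlgHom.toRingHom_eq_coe, RingHom.coe_coe, aeval_C]
      exact RedIndep.qExpand_algebraMap N a
    · simp only [RingHom.comp_apply, AlgHom.toRingHom_eq_coe, RingHom.coe_coe, aeval_X]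
      rfl
  exact congrArg (fun φ : k[X] →+* LaurentSeries k => φ p) hcomp

/-- `1, y, …, y^(n-1)` are linearly independent over `k[j]`, for every field `k` receiving
`ℤ[ζ_N, 1/N]`. -/
theorem indep_yUnit {k : Type*} [Field k] (π : RN N →+* k) (a : Fin (nX N) → k[X])
    (h : ∑ i, aeval (jqModC k) (a i) * (yUnit k N : LaurentSeries k) ^ (i : ℕ) = 0) : a = 0 := by
  refine RedIndep.core_indep N (anX N) π a ?_
  have h1 := congrArg (qExpand k N) h
  rw [map_sum, map_zero] at h1
  rw [← h1]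
  refine Finset.sum_congr rfl fun i _ => ?_
  rw [map_mul, map_pow, qExpand_aeval_jq]

theorem aeval_mem_of_mem {K E : Type*} [Field K] [Field E] [Algebra K E]
    (F : IntermediateField K E) {x : E} (hx : x ∈ F) (q : K[X]) : aeval x q ∈ F :=
  (Algebra.adjoin_le (S := F.toSubalgebra) (Set.singleton_subset_iff.mpr hx))
    (Polynomial.aeval_mem_adjoin_singleton K x)

end Indep

/-! ### The modular Gauss normal form -/

section Modular

variable (N : ℕ) [NeZero N] {ℓ : ℕ} [Fact ℓ.Prime] (A : ValuationSubring (AlgebraicClosure ℚ))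

omit [NeZero N] in
theorem fullC_le_bar :
    modularFunctionFieldFullC (AlgebraicClosure ℚ) N ≤ modularFunctionFieldBar N := by
  rw [modularFunctionFieldFullC, IntermediateField.adjoin_le_iff]
  rintro _ ⟨d, hd0, hd, rfl⟩
  have h1 : qExpand (AlgebraicClosure ℚ) d (jqModC (AlgebraicClosure ℚ)) =
      coeffEmb (AlgebraicClosure ℚ) (qExpand ℚ d (jqModC ℚ)) := by
    show _ = coeffMap (algebraMap ℚ (AlgebraicClosure ℚ)) _
    rw [coeffMap_qExpand, coeffMap_jqModC]
  rw [h1]
  exact coeffEmb_mem_laurentBaseChange _ (jqModCd_mem_full ℚ N hd)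

theorem algebraMap_eq_C {K : Type*} [Field K] (c : K) :
    algebraMap K (LaurentSeries K) c = HahnSeries.C c := by
  rw [HahnSeries.C_apply]
  exact algebraMap_laurentSeries_eq_single K c

/-- **The normal form.** -/
theorem key_form (hℓN : ¬ ℓ ∣ N) (hA : A.LiesOverPrime ℓ)
    {f : LaurentSeries (AlgebraicClosure ℚ)} (hf : f ∈ modularFunctionFieldBar N) (hf0 : f ≠ 0) :
    ∃ (c : AlgebraicClosure ℚ) (z₁ z₂ : LaurentSeries A), c ≠ 0 ∧
      coeffMap A.subtype z₁ ∈ modularFunctionFieldBar N ∧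
      coeffMap A.subtype z₂ ∈ modularFunctionFieldBar N ∧
      coeffMap (IsLocalRing.residue A) z₁ ∈
        modularFunctionFieldFullC (IsLocalRing.ResidueField A) N ∧
      coeffMap (IsLocalRing.residue A) z₂ ∈
        modularFunctionFieldFullC (IsLocalRing.ResidueField A) N ∧
      coeffMap (IsLocalRing.residue A) z₁ ≠ 0 ∧ coeffMap (IsLocalRing.residue A) z₂ ≠ 0 ∧
      f * coeffMap A.subtype z₂ = HahnSeries.C c * coeffMap A.subtype z₁ := by
  classical
  obtain ⟨d, p, hd, hrel⟩ := exists_rel_of_mem_bar N (toL A N hA hℓN) hf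
  have hd0 : d ≠ 0 := by
    rintro rfl
    exact hd (map_zero _)
  have hp : ∃ i, p i ≠ 0 := by
    by_contra hcon
    simp only [not_exists, not_not] at hcon
    rw [Finset.sum_eq_zero (fun i _ => by rw [hcon i, map_zero, zero_mul])] at hrel
    exact (mul_ne_zero hf0 hd) hrel
  obtain ⟨cd, d', hcd, hd', ⟨_, hdres⟩⟩ :=
    exists_normalize_family A (fun _ : Unit => d) ⟨(), hd0⟩
  obtain ⟨cp, p', hcp, hp', ⟨i₀, hpres⟩⟩ := exists_normalize_family A p hp
  have hjb : jqModC (AlgebraicClosure ℚ) ∈ modularFunctionFieldBar N :=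
    fullC_le_bar N (jqModC_mem_full _ N)
  have hyb : (yUnit (AlgebraicClosure ℚ) N : LaurentSeries (AlgebraicClosure ℚ)) ∈
      modularFunctionFieldBar N :=
    fullC_le_bar N (yUnit_mem_full N (toL A N hA hℓN) (natCast_ne_zero_L N))
  have hjt : jqModC (IsLocalRing.ResidueField A) ∈
      modularFunctionFieldFullC (IsLocalRing.ResidueField A) N := jqModC_mem_full _ N
  have hyt : (yUnit (IsLocalRing.ResidueField A) N : LaurentSeries (IsLocalRing.ResidueField A)) ∈
      modularFunctionFieldFullC (IsLocalRing.ResidueField A) N :=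
    yUnit_mem_full N (toK A N hA hℓN) (natCast_ne_zero_K A N hA hℓN)
  have hgen1 : coeffMap A.subtype
      (∑ i, aeval (jqModC A) (p' i) * (yUnit A N : LaurentSeries A) ^ (i : ℕ)) =
      ∑ i, aeval (jqModC (AlgebraicClosure ℚ)) ((p' i).map A.subtype) *
        (yUnit (AlgebraicClosure ℚ) N : LaurentSeries (AlgebraicClosure ℚ)) ^ (i : ℕ) := by
    rw [map_sum]
    refine Finset.sum_congr rfl fun i _ => ?_
    rw [map_mul, map_pow, coeffMap_aeval_jq, QRed.coeffMap_yUnit]
  have hred1 : coeffMap (IsLocalRing.residue A)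
      (∑ i, aeval (jqModC A) (p' i) * (yUnit A N : LaurentSeries A) ^ (i : ℕ)) =
      ∑ i, aeval (jqModC (IsLocalRing.ResidueField A)) ((p' i).map (IsLocalRing.residue A)) *
        (yUnit (IsLocalRing.ResidueField A) N :
          LaurentSeries (IsLocalRing.ResidueField A)) ^ (i : ℕ) := by
    rw [map_sum]
    refine Finset.sum_congr rfl fun i _ => ?_
    rw [map_mul, map_pow, coeffMap_aeval_jq, QRed.coeffMap_yUnit]
  refine ⟨cp / cd, ∑ i, aeval (jqModC A) (p' i) * (yUnit A N : LaurentSeries A) ^ (i : ℕ),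
    aeval (jqModC A) (d' ()), div_ne_zero hcp hcd, ?_, ?_, ?_, ?_, ?_, ?_, ?_⟩
  · rw [hgen1]
    exact sum_mem fun i _ => mul_mem (aeval_mem_of_mem _ hjb _) (pow_mem hyb _)
  · rw [coeffMap_aeval_jq]
    exact aeval_mem_of_mem _ hjb _
  · rw [hred1]
    exact sum_mem fun i _ => mul_mem (aeval_mem_of_mem _ hjt _) (pow_mem hyt _)
  · rw [coeffMap_aeval_jq]
    exact aeval_mem_of_mem _ hjt _
  · rw [hred1]
    intro h
    have h1 := indep_yUnit N (toK A N hA hℓN) _ h
    exact hpres (congrFun h1 i₀)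
  · rw [coeffMap_aeval_jq]
    intro h
    exact hdres (QRed.eq_zero_of_aeval_jqModC_eq_zero _ h)
  · rw [hgen1, coeffMap_aeval_jq]
    have hrel' : f * (HahnSeries.C cd *
        aeval (jqModC (AlgebraicClosure ℚ)) ((d' ()).map A.subtype)) =
        HahnSeries.C cp * ∑ i, aeval (jqModC (AlgebraicClosure ℚ)) ((p' i).map A.subtype) *
          (yUnit (AlgebraicClosure ℚ) N : LaurentSeries (AlgebraicClosure ℚ)) ^ (i : ℕ) := by
      rw [Finset.mul_sum]
      have e1 : aeval (jqModC (AlgebraicClosure ℚ)) d = HahnSeries.C cd *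
          aeval (jqModC (AlgebraicClosure ℚ)) ((d' ()).map A.subtype) := by
        conv_lhs => rw [hd' ()]
        rw [map_mul, aeval_C, algebraMap_eq_C]
      rw [← e1, hrel]
      refine Finset.sum_congr rfl fun i _ => ?_
      conv_lhs => rw [hp' i]
      rw [map_mul, aeval_C, algebraMap_eq_C, mul_assoc]
    have hCcd : (HahnSeries.C cd : LaurentSeries (AlgebraicClosure ℚ)) ≠ 0 := by
      intro h
      apply hcd
      have : (HahnSeries.C cd : LaurentSeries (AlgebraicClosure ℚ)) = HahnSeries.C 0 := by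
        rw [h, map_zero]
      exact HahnSeries.C_injective this
    rw [map_div₀, div_mul_eq_mul_div, eq_div_iff hCcd]
    linear_combination hrel'

/-- **Residue field.**  The Gauss reduction of an element of `ℚ̄(X₀(N))` lies in `k(X₀(N))`. -/
theorem isRedOf_mem_full (hℓN : ¬ ℓ ∣ N) (hA : A.LiesOverPrime ℓ)
    {x : LaurentSeries (AlgebraicClosure ℚ)} {w : LaurentSeries (IsLocalRing.ResidueField A)}
    (h : IsRedOf A x w) (hx : x ∈ modularFunctionFieldBar N) :
    w ∈ modularFunctionFieldFullC (IsLocalRing.ResidueField A) N := by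
  by_cases hx0 : x = 0
  · obtain ⟨y₁, y₂, h0, hx', hw⟩ := h
    rw [hx0, zero_mul] at hx'
    have hy1 : y₁ = 0 := gen_injective A (by rw [← hx', map_zero])
    rw [hy1, map_zero] at hw
    rcases mul_eq_zero.mp hw with e | e
    · rw [e]; exact zero_mem _
    · exact absurd e h0
  obtain ⟨c, z₁, z₂, hc, -, -, hz₁t, hz₂t, hz₁0, hz₂0, hrel⟩ := key_form N A hℓN hA hx hx0
  have hCC : (HahnSeries.C c⁻¹ : LaurentSeries (AlgebraicClosure ℚ)) * HahnSeries.C c = 1 := by
    rw [← map_mul, inv_mul_cancel₀ hc, map_one]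
  have hCC' : (HahnSeries.C c : LaurentSeries (AlgebraicClosure ℚ)) * HahnSeries.C c⁻¹ = 1 := by
    rw [← map_mul, mul_inv_cancel₀ hc, map_one]
  -- `x₀ = c⁻¹ x` has nonzero Gauss reduction `w₀ = z̄₁ / z̄₂`
  have h0 : IsRedOf A (HahnSeries.C c⁻¹ * x)
      (coeffMap (IsLocalRing.residue A) z₁ * (coeffMap (IsLocalRing.residue A) z₂)⁻¹) := by
    refine ⟨z₁, z₂, hz₂0, ?_, ?_⟩
    · rw [mul_assoc, hrel, ← mul_assoc, hCC, one_mul]
    · rw [mul_assoc, inv_mul_cancel₀ hz₂0, mul_one]
  have hw0 : coeffMap (IsLocalRing.residue A) z₁ * (coeffMap (IsLocalRing.residue A) z₂)⁻¹ ≠ 0 :=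
    mul_ne_zero hz₁0 (inv_ne_zero hz₂0)
  have hx' : HahnSeries.C c * (HahnSeries.C c⁻¹ * x) = x := by
    rw [← mul_assoc, hCC', one_mul]
  have hcA : c ∈ A := IsRedOf.const_mem' h0 hw0 (w' := w) (by rw [hx']; exact h)
  have h1 : IsRedOf A x (HahnSeries.C (IsLocalRing.residue A ⟨c, hcA⟩) *
      (coeffMap (IsLocalRing.residue A) z₁ * (coeffMap (IsLocalRing.residue A) z₂)⁻¹)) := by
    refine ⟨HahnSeries.C (⟨c, hcA⟩ : A) * z₁, z₂, hz₂0, ?_, ?_⟩
    · rw [hrel, map_mul, gen_C]
    · rw [map_mul, red_C, mul_assoc, mul_assoc, inv_mul_cancel₀ hz₂0, mul_one]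
  rw [IsRedOf.unique' h h1]
  refine mul_mem ?_ (mul_mem hz₁t (inv_mem hz₂t))
  rw [← algebraMap_eq_C]
  exact IntermediateField.algebraMap_mem _ _

/-- **Admissibility is automatic**: `Adm A Fb Ft = { y ∈ A((q)) : y ∈ Fb }`. -/
theorem adm_of_gen (hℓN : ¬ ℓ ∣ N) (hA : A.LiesOverPrime ℓ) (y : LaurentSeries A)
    (hy : coeffMap A.subtype y ∈ modularFunctionFieldBar N) :
    coeffMap (IsLocalRing.residue A) y ∈
      modularFunctionFieldFullC (IsLocalRing.ResidueField A) N :=
  isRedOf_mem_full N A hℓN hA (isRedOf_coeffMap A y) hy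

/-- **Gauss normal form** (hypothesis `hGauss` of `core`). -/
theorem gauss_normal_form (hℓN : ¬ ℓ ∣ N) (hA : A.LiesOverPrime ℓ)
    (f : ↥(modularFunctionFieldBar N)) (hf : f ≠ 0) :
    ∃ (c : AlgebraicClosure ℚ)
      (y₁ y₂ : Adm A (modularFunctionFieldBar N)
        (modularFunctionFieldFullC (IsLocalRing.ResidueField A) N)), c ≠ 0 ∧
      redOf A (modularFunctionFieldBar N)
        (modularFunctionFieldFullC (IsLocalRing.ResidueField A) N) y₁ ≠ 0 ∧
      redOf A (modularFunctionFieldBar N)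
        (modularFunctionFieldFullC (IsLocalRing.ResidueField A) N) y₂ ≠ 0 ∧
      f * genOf A (modularFunctionFieldBar N)
          (modularFunctionFieldFullC (IsLocalRing.ResidueField A) N) y₂ =
        algebraMap (AlgebraicClosure ℚ) ↥(modularFunctionFieldBar N) c *
          genOf A (modularFunctionFieldBar N)
            (modularFunctionFieldFullC (IsLocalRing.ResidueField A) N) y₁ := by
  have hf0 : (f : LaurentSeries (AlgebraicClosure ℚ)) ≠ 0 := fun h => hf (Subtype.ext h)
  obtain ⟨c, z₁, z₂, hc, hz₁b, hz₂b, hz₁t, hz₂t, hz₁0, hz₂0, hrel⟩ :=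
    key_form N A hℓN hA f.2 hf0
  refine ⟨c, ⟨z₁, hz₁b, hz₁t⟩, ⟨z₂, hz₂b, hz₂t⟩, hc, ?_, ?_, ?_⟩
  · intro h
    exact hz₁0 (congrArg Subtype.val h)
  · intro h
    exact hz₂0 (congrArg Subtype.val h)
  · apply Subtype.ext
    show (f : LaurentSeries (AlgebraicClosure ℚ)) * coeffMap A.subtype z₂ =
      algebraMap (AlgebraicClosure ℚ) (LaurentSeries (AlgebraicClosure ℚ)) c *
        coeffMap A.subtype z₁
    rw [algebraMap_eq_C]
    exact hrel

/-- Gauss normal form, relational version. -/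
theorem exists_const_mul_isRedOf (hℓN : ¬ ℓ ∣ N) (hA : A.LiesOverPrime ℓ)
    (f : LaurentSeries (AlgebraicClosure ℚ)) (hf : f ∈ modularFunctionFieldBar N) (hf0 : f ≠ 0) :
    ∃ (c : AlgebraicClosure ℚ) (w : LaurentSeries (IsLocalRing.ResidueField A)), c ≠ 0 ∧ w ≠ 0 ∧
      IsRedOf A (HahnSeries.C c * f) w := by
  obtain ⟨c, z₁, z₂, hc, -, -, -, -, hz₁0, hz₂0, hrel⟩ := key_form N A hℓN hA hf hf0
  have hCC : (HahnSeries.C c⁻¹ : LaurentSeries (AlgebraicClosure ℚ)) * HahnSeries.C c = 1 := by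
    rw [← map_mul, inv_mul_cancel₀ hc, map_one]
  refine ⟨c⁻¹, coeffMap (IsLocalRing.residue A) z₁ * (coeffMap (IsLocalRing.residue A) z₂)⁻¹,
    inv_ne_zero hc, mul_ne_zero hz₁0 (inv_ne_zero hz₂0), z₁, z₂, hz₂0, ?_, ?_⟩
  · rw [mul_assoc, hrel, ← mul_assoc, hCC, one_mul]
  · rw [mul_assoc, inv_mul_cancel₀ hz₂0, mul_one]

/-- The set of Gauss reductions of elements of `ℚ̄(X₀(N))`, as a subfield of `k((q))`. -/
def redField : Subfield (LaurentSeries (IsLocalRing.ResidueField A)) where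
  carrier := {w | ∃ x, x ∈ modularFunctionFieldBar N ∧ IsRedOf A x w}
  mul_mem' := by
    rintro a b ⟨x, hx, h⟩ ⟨x', hx', h'⟩
    exact ⟨x * x', mul_mem hx hx', IsRedOf.mul' h h'⟩
  one_mem' := ⟨1, one_mem _, by
    have h := isRedOf_coeffMap A 1
    rwa [map_one, map_one] at h⟩
  add_mem' := by
    rintro a b ⟨x, hx, h⟩ ⟨x', hx', h'⟩
    exact ⟨x + x', add_mem hx hx', IsRedOf.add' h h'⟩
  zero_mem' := ⟨0, zero_mem _, by
    have h := isRedOf_coeffMap A 0
    rwa [map_zero, map_zero] at h⟩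
  neg_mem' := by
    rintro a ⟨x, hx, h⟩
    exact ⟨-x, neg_mem hx, IsRedOf.neg' h⟩
  inv_mem' := by
    rintro a ⟨x, hx, h⟩
    by_cases ha : a = 0
    · rw [ha, inv_zero]
      exact ⟨0, zero_mem _, by
        have h := isRedOf_coeffMap A 0
        rwa [map_zero, map_zero] at h⟩
    · exact ⟨x⁻¹, inv_mem hx, IsRedOf.inv' h ha⟩

omit [NeZero N] in
/-- **Surjectivity**: every element of `k(X₀(N))` is the Gauss reduction of an element of
`ℚ̄(X₀(N))`. -/
theorem exists_isRedOf_of_mem_full (w : LaurentSeries (IsLocalRing.ResidueField A))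
    (hw : w ∈ modularFunctionFieldFullC (IsLocalRing.ResidueField A) N) :
    ∃ x : LaurentSeries (AlgebraicClosure ℚ), x ∈ modularFunctionFieldBar N ∧ IsRedOf A x w := by
  have hconst : ∀ c : IsLocalRing.ResidueField A,
      algebraMap (IsLocalRing.ResidueField A) (LaurentSeries (IsLocalRing.ResidueField A)) c ∈
        redField N A := by
    intro c
    obtain ⟨a, rfl⟩ := IsLocalRing.residue_surjective c
    refine ⟨HahnSeries.C (a : AlgebraicClosure ℚ), ?_, ?_⟩
    · rw [← algebraMap_eq_C]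
      exact IntermediateField.algebraMap_mem _ _
    · have h := isRedOf_coeffMap A (HahnSeries.C a)
      rw [gen_C, red_C] at h
      rw [algebraMap_eq_C]
      exact h
  have hle : modularFunctionFieldFullC (IsLocalRing.ResidueField A) N ≤
      (redField N A).toIntermediateField hconst := by
    rw [modularFunctionFieldFullC, IntermediateField.adjoin_le_iff]
    rintro _ ⟨d, hd0, hd, rfl⟩
    refine ⟨qExpand (AlgebraicClosure ℚ) d (jqModC (AlgebraicClosure ℚ)), ?_, ?_⟩
    · exact fullC_le_bar N (jqModCd_mem_full _ N hd)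
    · have h := isRedOf_coeffMap A (qExpand A d (jqModC A))
      rwa [coeffMap_qExpand, coeffMap_qExpand, coeffMap_jqModC, coeffMap_jqModC] at h
  exact hle hw

end Modular

end Fermat.Agent.S18.RED5669
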