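import Fermat.Agent.S28.AN.Assemble

/-!
# S18 / RED (helper5669): the explicit analytic data of level `N`

`anX N : ANData N` is the explicit `ANData` built in the landed S28 tree (there only its existence
`exists_ANData` is stated): index set `SL(2, ℤ) ⧸ Γ₀(N)`, `Y u = Ycusp N (cosetRep N u)`,
`J u d = Jcusp N (cosetRep N u) d`.  Being a definition, its fields can be unfolded.
-/

set_option autoImplicit false

noncomputable section

namespace Fermat.Agent.S18.RED5669

open Fermat.Agent.S28 ModularCurve UpperHalfPlane Polynomial CongruenceSubgroup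
open scoped MatrixGroups Manifold

variable (N : ℕ) [NeZero N]

/-- The index set `SL(2, ℤ) ⧸ Γ₀(N)`. -/
abbrev Idx : Type := SL(2, ℤ) ⧸ Gamma0 N

theorem finite_Idx : Finite (Idx N) := Subgroup.finite_quotient_of_finiteIndex

/-- the trivial coset -/
def idx0 : Idx N := QuotientGroup.mk 1

theorem cosetRep_idx0_mem : cosetRep N (idx0 N) ∈ Gamma0 N := by
  have h1 : (QuotientGroup.mk (Quotient.out (idx0 N)) : SL(2, ℤ) ⧸ Gamma0 N) = QuotientGroup.mk 1 :=
    QuotientGroup.out_eq' (idx0 N)
  have h2 := QuotientGroup.eq.mp h1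
  simpa [cosetRep] using h2

theorem cosetRep_not_mem (u : Idx N) (hu : u ≠ idx0 N) : cosetRep N u ∉ Gamma0 N := by
  intro hmem
  apply hu
  rw [← QuotientGroup.out_eq' u]
  refine QuotientGroup.eq.mpr ?_
  simpa [cosetRep] using hmem

/-- the element of the subring of functions with `t`-expansions attached to `y ∘ γ_u` -/
def sYx (u : Idx N) : texpSubring N :=
  ⟨(fun τ => yFun N (cosetRep N u • τ), coeffMap (RN N).subtype (Ycusp N (cosetRep N u))),
    mdiff_yFun_smul N (cosetRep N u), hasTExp_yFun_smul N (cosetRep N u)⟩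

/-- the element attached to `(y ∘ γ_u)⁻¹` -/
def sYix (u : Idx N) : texpSubring N :=
  ⟨(fun τ => (yFun N (cosetRep N u • τ))⁻¹, coeffMap (RN N).subtype
      (((Ycusp N (cosetRep N u))⁻¹ : (LaurentSeries (RN N))ˣ) : LaurentSeries (RN N))),
    mdiff_yFun_inv_smul N (cosetRep N u), hasTExp_yFun_inv_smul N (cosetRep N u)⟩

/-- the element attached to `j(d · γ_u τ)` -/
def sJx (d : ℕ) (hd : d ∣ N) (u : Idx N) : texpSubring N :=
  ⟨(fun τ => jFun (scaleH d (cosetRep N u • τ)), coeffMap (RN N).subtype (Jcusp N (cosetRep N u) d)),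
    mdiff_jFun_smul (cosetRep N u) d
      (Nat.pos_of_ne_zero (ne_zero_of_dvd_ne_zero (NeZero.ne N) hd)),
    hasTExp_jFun_smul N (cosetRep N u) d hd⟩

theorem charpoly_Y_x [Fintype (Idx N)] :
    ∏ u : Idx N, (X - C (Ycusp N (cosetRep N u) : LaurentSeries (RN N))) ∈
      Polynomial.lifts ((Polynomial.aeval (R := RN N) (jt (RN N) N)).toRingHom) := by
  rw [Polynomial.lifts_iff_coeff_lifts]
  intro k
  refine mem_range_of_invariant N ((∏ u, (X - C (sYx N u))).coeff k) ?_ _ ?_
  · intro γ τ
    rw [← Polynomial.coeff_map, ← Polynomial.coeff_map]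
    congr 1
    simp only [Polynomial.map_prod, Polynomial.map_sub, Polynomial.map_X, Polynomial.map_C]
    have e : ∀ u, texpEval N (γ • τ) (sYx N u) =
        texpEval N τ (sYx N ((MulAction.toPerm γ⁻¹) u)) :=
      fun u => yFun_cosetRep_smul N γ u τ
    simp only [e]
    exact prod_X_sub_C_comp (MulAction.toPerm γ⁻¹) (fun u => texpEval N τ (sYx N u))
  · rw [← Polynomial.coeff_map, ← Polynomial.coeff_map]
    congr 1
    simp only [Polynomial.map_prod, Polynomial.map_sub, Polynomial.map_X, Polynomial.map_C]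
    rfl

theorem charpoly_Yinv_x [Fintype (Idx N)] :
    ∏ u : Idx N, (X - C (((Ycusp N (cosetRep N u))⁻¹ : (LaurentSeries (RN N))ˣ) :
        LaurentSeries (RN N))) ∈
      Polynomial.lifts ((Polynomial.aeval (R := RN N) (jt (RN N) N)).toRingHom) := by
  rw [Polynomial.lifts_iff_coeff_lifts]
  intro k
  refine mem_range_of_invariant N ((∏ u, (X - C (sYix N u))).coeff k) ?_ _ ?_
  · intro γ τ
    rw [← Polynomial.coeff_map, ← Polynomial.coeff_map]
    congr 1
    simp only [Polynomial.map_prod, Polynomial.map_sub, Polynomial.map_X, Polynomial.map_C]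
    have e : ∀ u, texpEval N (γ • τ) (sYix N u) =
        texpEval N τ (sYix N ((MulAction.toPerm γ⁻¹) u)) :=
      fun u => congrArg (·⁻¹) (yFun_cosetRep_smul N γ u τ)
    simp only [e]
    exact prod_X_sub_C_comp (MulAction.toPerm γ⁻¹) (fun u => texpEval N τ (sYix N u))
  · rw [← Polynomial.coeff_map, ← Polynomial.coeff_map]
    congr 1
    simp only [Polynomial.map_prod, Polynomial.map_sub, Polynomial.map_X, Polynomial.map_C]
    rfl

theorem lagrange_x [Fintype (Idx N)] [DecidableEq (Idx N)] (d : ℕ) (hd : d ∣ N) :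
    ∑ u : Idx N, C (Jcusp N (cosetRep N u) d) *
        ∏ u' ∈ Finset.univ.erase u, (X - C (Ycusp N (cosetRep N u') : LaurentSeries (RN N))) ∈
      Polynomial.lifts ((Polynomial.aeval (R := RN N) (jt (RN N) N)).toRingHom) := by
  rw [Polynomial.lifts_iff_coeff_lifts]
  intro k
  refine mem_range_of_invariant N
    ((∑ u, C (sJx N d hd u) * ∏ u' ∈ Finset.univ.erase u, (X - C (sYx N u'))).coeff k) ?_ _ ?_
  · intro γ τ
    rw [← Polynomial.coeff_map, ← Polynomial.coeff_map]
    congr 1
    simp only [Polynomial.map_sum, Polynomial.map_mul, Polynomial.map_prod, Polynomial.map_sub,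
      Polynomial.map_X, Polynomial.map_C]
    have e : ∀ u, texpEval N (γ • τ) (sYx N u) =
        texpEval N τ (sYx N ((MulAction.toPerm γ⁻¹) u)) :=
      fun u => yFun_cosetRep_smul N γ u τ
    have e' : ∀ u, texpEval N (γ • τ) (sJx N d hd u) =
        texpEval N τ (sJx N d hd ((MulAction.toPerm γ⁻¹) u)) :=
      fun u => jFun_cosetRep_smul N γ u d hd τ
    simp only [e, e']
    exact lagrange_sum_comp (MulAction.toPerm γ⁻¹) (fun u => texpEval N τ (sYx N u))
      (fun u => texpEval N τ (sJx N d hd u))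
  · rw [← Polynomial.coeff_map, ← Polynomial.coeff_map]
    congr 1
    simp only [Polynomial.map_sum, Polynomial.map_mul, Polynomial.map_prod, Polynomial.map_sub,
      Polynomial.map_X, Polynomial.map_C]
    rfl

/-! ### General invariance statements for families indexed by the cosets -/

/-- Characteristic polynomial of an equivariant family: coefficients are polynomials in `j`. -/
theorem charpoly_general [Fintype (Idx N)] (s : Idx N → texpSubring N)
    (g : Idx N → LaurentSeries (RN N))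
    (hg : ∀ u, coeffMap (RN N).subtype (g u) = texpSnd N (s u))
    (he : ∀ (γ : SL(2, ℤ)) (τ : ℍ) (u : Idx N),
      texpEval N (γ • τ) (s u) = texpEval N τ (s ((MulAction.toPerm γ⁻¹) u))) :
    ∏ u : Idx N, (X - C (g u)) ∈
      Polynomial.lifts ((Polynomial.aeval (R := RN N) (jt (RN N) N)).toRingHom) := by
  rw [Polynomial.lifts_iff_coeff_lifts]
  intro k
  refine mem_range_of_invariant N ((∏ u, (X - C (s u))).coeff k) ?_ _ ?_
  · intro γ τ
    rw [← Polynomial.coeff_map, ← Polynomial.coeff_map]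
    congr 1
    simp only [Polynomial.map_prod, Polynomial.map_sub, Polynomial.map_X, Polynomial.map_C]
    simp only [he]
    exact prod_X_sub_C_comp (MulAction.toPerm γ⁻¹) (fun u => texpEval N τ (s u))
  · rw [← Polynomial.coeff_map, ← Polynomial.coeff_map]
    congr 1
    simp only [Polynomial.map_prod, Polynomial.map_sub, Polynomial.map_X, Polynomial.map_C, hg]

/-- Lagrange sums of two equivariant families: coefficients are polynomials in `j`. -/
theorem lagrange_general [Fintype (Idx N)] [DecidableEq (Idx N)]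
    (s s' : Idx N → texpSubring N) (g g' : Idx N → LaurentSeries (RN N))
    (hg : ∀ u, coeffMap (RN N).subtype (g u) = texpSnd N (s u))
    (hg' : ∀ u, coeffMap (RN N).subtype (g' u) = texpSnd N (s' u))
    (he : ∀ (γ : SL(2, ℤ)) (τ : ℍ) (u : Idx N),
      texpEval N (γ • τ) (s u) = texpEval N τ (s ((MulAction.toPerm γ⁻¹) u)))
    (he' : ∀ (γ : SL(2, ℤ)) (τ : ℍ) (u : Idx N),
      texpEval N (γ • τ) (s' u) = texpEval N τ (s' ((MulAction.toPerm γ⁻¹) u))) :
    ∑ u : Idx N, C (g' u) * ∏ u' ∈ Finset.univ.erase u, (X - C (g u')) ∈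
      Polynomial.lifts ((Polynomial.aeval (R := RN N) (jt (RN N) N)).toRingHom) := by
  rw [Polynomial.lifts_iff_coeff_lifts]
  intro k
  refine mem_range_of_invariant N
    ((∑ u, C (s' u) * ∏ u' ∈ Finset.univ.erase u, (X - C (s u'))).coeff k) ?_ _ ?_
  · intro γ τ
    rw [← Polynomial.coeff_map, ← Polynomial.coeff_map]
    congr 1
    simp only [Polynomial.map_sum, Polynomial.map_mul, Polynomial.map_prod, Polynomial.map_sub,
      Polynomial.map_X, Polynomial.map_C]
    simp only [he, he']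
    exact lagrange_sum_comp (MulAction.toPerm γ⁻¹) (fun u => texpEval N τ (s u))
      (fun u => texpEval N τ (s' u))
  · rw [← Polynomial.coeff_map, ← Polynomial.coeff_map]
    congr 1
    simp only [Polynomial.map_sum, Polynomial.map_mul, Polynomial.map_prod, Polynomial.map_sub,
      Polynomial.map_X, Polynomial.map_C, hg, hg']

theorem sYx_equivariant (γ : SL(2, ℤ)) (τ : ℍ) (u : Idx N) :
    texpEval N (γ • τ) (sYx N u) = texpEval N τ (sYx N ((MulAction.toPerm γ⁻¹) u)) :=
  yFun_cosetRep_smul N γ u τ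

theorem sJx_equivariant (d : ℕ) (hd : d ∣ N) (γ : SL(2, ℤ)) (τ : ℍ) (u : Idx N) :
    texpEval N (γ • τ) (sJx N d hd u) = texpEval N τ (sJx N d hd ((MulAction.toPerm γ⁻¹) u)) :=
  jFun_cosetRep_smul N γ u d hd τ

/-- `∏_u (X - J_{u,d}) ∈ R[j][X]`. -/
theorem charpoly_J_x [Fintype (Idx N)] (d : ℕ) (hd : d ∣ N) :
    ∏ u : Idx N, (X - C (Jcusp N (cosetRep N u) d)) ∈
      Polynomial.lifts ((Polynomial.aeval (R := RN N) (jt (RN N) N)).toRingHom) :=
  charpoly_general N (sJx N d hd) _ (fun _ => rfl) (sJx_equivariant N d hd)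

/-- Lagrange sums `Σ_u Y_u ∏_{u' ≠ u} (X - J_{u',d}) ∈ R[j][X]`. -/
theorem lagrange_YJ_x [Fintype (Idx N)] [DecidableEq (Idx N)] (d : ℕ) (hd : d ∣ N) :
    ∑ u : Idx N, C (Ycusp N (cosetRep N u) : LaurentSeries (RN N)) *
        ∏ u' ∈ Finset.univ.erase u, (X - C (Jcusp N (cosetRep N u') d)) ∈
      Polynomial.lifts ((Polynomial.aeval (R := RN N) (jt (RN N) N)).toRingHom) :=
  lagrange_general N (sJx N d hd) (sYx N) _ _ (fun _ => rfl) (fun _ => rfl)
    (sJx_equivariant N d hd) (sYx_equivariant N)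

/-- Lagrange sums `Σ_u J_{u,e} ∏_{u' ≠ u} (X - J_{u',d}) ∈ R[j][X]`. -/
theorem lagrange_JJ_x [Fintype (Idx N)] [DecidableEq (Idx N)] (d : ℕ) (hd : d ∣ N)
    (e : ℕ) (he : e ∣ N) :
    ∑ u : Idx N, C (Jcusp N (cosetRep N u) e) *
        ∏ u' ∈ Finset.univ.erase u, (X - C (Jcusp N (cosetRep N u') d)) ∈
      Polynomial.lifts ((Polynomial.aeval (R := RN N) (jt (RN N) N)).toRingHom) :=
  lagrange_general N (sJx N d hd) (sJx N e he) _ _ (fun _ => rfl) (fun _ => rfl)
    (sJx_equivariant N d hd) (sJx_equivariant N e he)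

/-- Lagrange sums `Σ_u ∏_{u' ≠ u} (X - J_{u',d}) ∈ R[j][X]` (the derivative of the characteristic
polynomial). -/
theorem lagrange_oneJ_x [Fintype (Idx N)] [DecidableEq (Idx N)] (d : ℕ) (hd : d ∣ N) :
    ∑ u : Idx N, C (1 : LaurentSeries (RN N)) *
        ∏ u' ∈ Finset.univ.erase u, (X - C (Jcusp N (cosetRep N u') d)) ∈
      Polynomial.lifts ((Polynomial.aeval (R := RN N) (jt (RN N) N)).toRingHom) :=
  lagrange_general N (sJx N d hd) (fun _ => 1) _ (fun _ => 1) (fun _ => rfl)
    (fun _ => by rw [map_one, map_one])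
    (sJx_equivariant N d hd) (fun _ _ _ => by rw [map_one, map_one])

/-- The explicit analytic data of level `N`. -/
def anX : ANData N :=
  letI : Fintype (Idx N) := @Fintype.ofFinite _ (finite_Idx N)
  letI : DecidableEq (Idx N) := Classical.decEq _
  { R := RN N
    ι := Idx N
    u₀ := idx0 N
    Y := fun u => Ycusp N (cosetRep N u)
    J := fun u d => Jcusp N (cosetRep N u) d
    integral := fun ℓ hℓ hℓN r => RN_integral N ℓ hℓ hℓN r
    base_Y := Ycusp_base N (cosetRep N (idx0 N)) (dvd_of_mem_Gamma0 N (cosetRep_idx0_mem N))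
    base_J := fun d _ hd =>
      Jcusp_base N (cosetRep N (idx0 N)) (dvd_of_mem_Gamma0 N (cosetRep_idx0_mem N)) d hd
    charpoly_Y := charpoly_Y_x N
    charpoly_Yinv := charpoly_Yinv_x N
    lagrange := fun d hd => lagrange_x N d hd
    order_Y := fun u hu =>
      Ycusp_order N (cosetRep N u) (fun h => cosetRep_not_mem N u hu (mem_Gamma0_of_dvd N h)) }

@[simp] theorem anX_R : (anX N).R = RN N := rfl

theorem anX_ι : (anX N).ι = Idx N := rfl

theorem anX_J (u : Idx N) (d : ℕ) : (anX N).J u d = Jcusp N (cosetRep N u) d := rfl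

theorem anX_Y (u : Idx N) : (anX N).Y u = Ycusp N (cosetRep N u) := rfl

theorem anX_u₀ : (anX N).u₀ = idx0 N := rfl

end Fermat.Agent.S18.RED5669
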