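import Fermat.Agent.S18.RED5669.ANX

/-!
# S18 / RED (helper5669): the reduced conjugates of `j(N ·)` are pairwise distinct

For a field `k` in which `N` is invertible and a ring homomorphism `π : ℤ[ζ_N, 1/N] → k`, the
`ψ(N)` series `coeffMap π (Jcusp N γ_u N) ∈ k((t))` (`u ∈ SL(2, ℤ) ⧸ Γ₀(N)`) are pairwise distinct:
their leading terms are `ζ_δ^(-b) t^(-a²)` with `a δ = N`, `b mod δ`, and `(a, b mod δ)` determines
the coset.
-/

set_option autoImplicit false

noncomputable section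

namespace Fermat.Agent.S18.RED5669

open Fermat.Agent.S28 ModularCurve CongruenceSubgroup
open scoped MatrixGroups

section Lead

variable {R : Type*} [CommRing R]

theorem substHom_jq_coeff_neg (c : Rˣ) {m : ℕ} (hm : 0 < m) :
    (substHom c m (jqModC R)).coeff (-(m : ℤ)) = ((c⁻¹ : Rˣ) : R) := by
  have h := CL.substHom_coeff_mul c hm (jqModC R) (-1)
  rw [mul_neg_one] at h
  rw [h, coeff_jqModC_neg_one, mul_one, zpow_neg_one]

theorem substHom_jq_coeff_lt (c : Rˣ) {m : ℕ} (hm : 0 < m) {k : ℤ} (hk : k < -(m : ℤ)) :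
    (substHom c m (jqModC R)).coeff k = 0 := by
  by_cases hd : (m : ℤ) ∣ k
  · obtain ⟨k', rfl⟩ := hd
    have hm' : (0 : ℤ) < m := by exact_mod_cast hm
    have hk' : k' < -1 := by
      by_contra h
      have h' : -1 ≤ k' := not_lt.mp h
      nlinarith
    rw [CL.substHom_coeff_mul c hm, coeff_jqModC_of_lt R hk', mul_zero]
  · exact CL.substHom_coeff_of_not_dvd c hm _ hd

theorem substHom_jq_reduced_eq {k : Type*} [CommRing k] [Nontrivial k] (π : R →+* k)
    (c c' : Rˣ) {m m' : ℕ} (hm : 0 < m) (hm' : 0 < m')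
    (h : coeffMap π (substHom c m (jqModC R)) = coeffMap π (substHom c' m' (jqModC R))) :
    m = m' ∧ π ((c⁻¹ : Rˣ) : R) = π ((c'⁻¹ : Rˣ) : R) := by
  have hu : ∀ c : Rˣ, π ((c⁻¹ : Rˣ) : R) ≠ 0 := fun c =>
    ((c⁻¹ : Rˣ).isUnit.map π).ne_zero
  have key : ∀ (c c' : Rˣ) (m m' : ℕ), 0 < m → 0 < m' →
      coeffMap π (substHom c m (jqModC R)) = coeffMap π (substHom c' m' (jqModC R)) →
      ¬ m < m' := by
    intro c c' m m' hm hm' h hlt
    have h1 := congrArg (fun s : LaurentSeries k => s.coeff (-(m' : ℤ))) h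
    simp only [coeffMap_coeff] at h1
    rw [substHom_jq_coeff_neg c' hm', substHom_jq_coeff_lt c hm (by
      have : (m : ℤ) < m' := by exact_mod_cast hlt
      linarith), map_zero] at h1
    exact hu c' h1.symm
  have hmm : m = m' :=
    le_antisymm (not_lt.mp (key c' c m' m hm' hm h.symm)) (not_lt.mp (key c c' m m' hm hm' h))
  subst hmm
  refine ⟨rfl, ?_⟩
  have h1 := congrArg (fun s : LaurentSeries k => s.coeff (-(m : ℤ))) h
  simp only [coeffMap_coeff] at h1
  rwa [substHom_jq_coeff_neg c hm, substHom_jq_coeff_neg c' hm] at h1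

end Lead

section Zeta

variable (N : ℕ) [NeZero N]

theorem isPrimitiveRoot_zetaU : IsPrimitiveRoot ((zetaU N : (RN N)ˣ) : RN N) N := by
  have h1 : IsPrimitiveRoot (zetaC N) N := by
    unfold zetaC
    exact Complex.isPrimitiveRoot_exp N (NeZero.ne N)
  exact IsPrimitiveRoot.of_map_of_injective (f := (RN N).subtype) h1 Subtype.val_injective

theorem isPrimitiveRoot_map_zetaU {k : Type*} [Field k] (π : RN N →+* k) (hN : (N : k) ≠ 0) :
    IsPrimitiveRoot (π ((zetaU N : (RN N)ˣ) : RN N)) N := by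
  have h3 : (Polynomial.cyclotomic N (RN N)).IsRoot ((zetaU N : (RN N)ˣ) : RN N) :=
    (isPrimitiveRoot_zetaU N).isRoot_cyclotomic (Nat.pos_of_ne_zero (NeZero.ne N))
  have h4 : (Polynomial.cyclotomic N k).IsRoot (π ((zetaU N : (RN N)ˣ) : RN N)) := by
    rw [← Polynomial.map_cyclotomic N π]
    exact h3.map
  haveI : NeZero (N : k) := ⟨hN⟩
  exact Polynomial.isRoot_cyclotomic_iff.mp h4

end Zeta

section Arith

variable (N : ℕ)

theorem dvd_entry_of_cusp_eq (hN : 0 < N) (γ γ' : SL(2, ℤ)) (ha : cuspA γ N = cuspA γ' N)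
    (hb : (cuspDelta γ N : ℤ) ∣ cuspB γ N - cuspB γ' N) : (N : ℤ) ∣ (γ' * γ⁻¹) 1 0 := by
  have hδ : cuspDelta γ N = cuspDelta γ' N := by
    unfold cuspDelta
    rw [ha]
  have e1 : (γ' * γ⁻¹) 1 0 = γ' 1 0 * γ 1 1 - γ' 1 1 * γ 1 0 := by
    rw [Matrix.SpecialLinearGroup.SL2_inv_expl γ]
    simp [Matrix.SpecialLinearGroup.coe_mul, Matrix.mul_apply, Fin.sum_univ_two]
    ring
  have hz := CL.cuspA_mul_cuspR γ N
  have hz' := CL.cuspA_mul_cuspR γ' N
  have hw := CL.cuspS_spec γ hN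
  have hw' := CL.cuspS_spec γ' hN
  have hNa : ((cuspA γ N * cuspDelta γ N : ℕ) : ℤ) = (N : ℤ) := by
    rw [CL.cuspA_mul_cuspDelta]
  push_cast at hNa
  obtain ⟨t, ht⟩ := hb
  rw [← ha] at hz'
  rw [← hδ] at hw'
  refine ⟨CL.cuspR γ N * CL.cuspR γ' N * t + CL.cuspR γ' N * CL.cuspS γ N -
    CL.cuspS γ' N * CL.cuspR γ N, ?_⟩
  rw [e1, ← hz, ← hz', ← hw, ← hw', ← hNa]
  have hb' : cuspB γ N = cuspB γ' N + (cuspDelta γ N : ℤ) * t := by linarith
  rw [hb']
  ring

end Arith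

section Main

variable (N : ℕ) [NeZero N]

theorem cuspM_self (γ : SL(2, ℤ)) : cuspM N γ N = cuspA γ N ^ 2 := by
  have h := mul_cuspM N γ (dvd_refl N)
  exact Nat.eq_of_mul_eq_mul_left (Nat.pos_of_ne_zero (NeZero.ne N)) h

theorem div_cuspDelta_self (γ : SL(2, ℤ)) : N / cuspDelta γ N = cuspA γ N := by
  have hN : 0 < N := Nat.pos_of_ne_zero (NeZero.ne N)
  have h := CL.cuspA_mul_cuspDelta γ N
  exact Nat.div_eq_of_eq_mul_left (CL.cuspDelta_pos γ hN) h.symm

/-- The reduced conjugates of `j(N ·)` are pairwise distinct. -/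
theorem Jcusp_reduced_injective {k : Type*} [Field k] (π : RN N →+* k) (hNk : (N : k) ≠ 0)
    (u u' : Idx N)
    (h : coeffMap π (Jcusp N (cosetRep N u) N) = coeffMap π (Jcusp N (cosetRep N u') N)) :
    u = u' := by
  have hN : 0 < N := Nat.pos_of_ne_zero (NeZero.ne N)
  set γ := cosetRep N u with hγ
  set γ' := cosetRep N u' with hγ'
  obtain ⟨hm, hc⟩ := substHom_jq_reduced_eq π (cuspZ N γ N) (cuspZ N γ' N)
    (Fermat.Agent.S28.cuspM_pos N γ (dvd_refl N)) (Fermat.Agent.S28.cuspM_pos N γ' (dvd_refl N)) h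
  rw [cuspM_self, cuspM_self] at hm
  have ha : cuspA γ N = cuspA γ' N := by
    have := Nat.pow_left_injective (n := 2) (by norm_num) hm
    exact this
  have hδ : cuspDelta γ N = cuspDelta γ' N := by
    unfold cuspDelta
    rw [ha]
  -- the root of unity
  have hprim := isPrimitiveRoot_map_zetaU N π hNk
  set ζ : kˣ := Units.map (π : RN N →* k) (zetaU N) with hζ
  have hζprim : IsPrimitiveRoot ζ N := by
    rw [← IsPrimitiveRoot.coe_units_iff]
    exact hprim
  have hc' : Units.map (π : RN N →* k) ((cuspZ N γ N)⁻¹) =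
      Units.map (π : RN N →* k) ((cuspZ N γ' N)⁻¹) := Units.ext hc
  rw [cuspZ, cuspZ, div_cuspDelta_self, div_cuspDelta_self, ← ha, map_inv, map_inv, map_zpow,
    map_zpow, ← hζ, inv_inj] at hc'
  have h1 : ζ ^ ((cuspA γ N : ℤ) * cuspB γ N - (cuspA γ N : ℤ) * cuspB γ' N) = 1 := by
    rw [zpow_sub, hc', mul_inv_cancel]
  have h2 := (hζprim.zpow_eq_one_iff_dvd _).mp h1
  have hNa : ((cuspA γ N * cuspDelta γ N : ℕ) : ℤ) = (N : ℤ) := by
    rw [CL.cuspA_mul_cuspDelta]
  push_cast at hNa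
  have hapos : (0 : ℤ) < cuspA γ N := by exact_mod_cast CL.cuspA_pos γ hN
  have h3 : (cuspDelta γ N : ℤ) ∣ cuspB γ N - cuspB γ' N := by
    rw [← hNa, ← mul_sub] at h2
    exact (mul_dvd_mul_iff_left hapos.ne').mp h2
  have h4 := dvd_entry_of_cusp_eq N hN γ γ' ha h3
  have h5 : γ' * γ⁻¹ ∈ Gamma0 N := mem_Gamma0_of_dvd N h4
  rw [hγ, hγ', cosetRep, cosetRep, inv_inv] at h5
  have h6 : (QuotientGroup.mk (Quotient.out u') : SL(2, ℤ) ⧸ Gamma0 N) =
      QuotientGroup.mk (Quotient.out u) := QuotientGroup.eq.mpr h5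
  rw [QuotientGroup.out_eq', QuotientGroup.out_eq'] at h6
  exact h6.symm

/-- The reduced conjugates of `j(N ·)` in the explicit analytic data are pairwise distinct. -/
theorem anX_J_injective {k : Type*} [Field k] (π : (anX N).R →+* k) (hNk : (N : k) ≠ 0) :
    Function.Injective (fun u : (anX N).ι => coeffMap π ((anX N).J u N)) := by
  intro u u' h
  exact Jcusp_reduced_injective N π hNk u u' h

end Main

end Fermat.Agent.S18.RED5669
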