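import Fermat.Agent.S18.RED5669.ToA
import Fermat.Agent.S28.Span

/-!
# S18 / RED (helper5669): every element of the base-changed function field is
`(Σ_{i<n} p_i(j) y^i) / d(j)`

`n = ψ(N)`, `y` the eta quotient `yUnit`, over any field `L ⊇ ℚ` receiving `ℤ[ζ_N, 1/N]`.
-/

set_option autoImplicit false

noncomputable section

namespace Fermat.Agent.S18.RED5669

open Fermat.Agent.S28 ModularCurve Polynomial IntermediateField

section Naturality

variable {R S : Type*} [CommRing R] [CommRing S] (f : R →+* S)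

theorem coeffMap_aeval_jq (p : R[X]) :
    coeffMap f (aeval (jqModC R) p) = aeval (jqModC S) (p.map f) := by
  rw [aeval_def, aeval_def, Polynomial.hom_eval₂, Polynomial.eval₂_map, coeffMap_jqModC]
  congr 1
  refine RingHom.ext fun r => ?_
  simp only [RingHom.comp_apply]
  exact RedIndep.coeffMap_algebraMap' f r

end Naturality

section Rel

variable (N : ℕ) [NeZero N]

/-- The number of cosets, as the cardinality used in the `ANData` structure. -/
abbrev nX : ℕ := Fintype.card (anX N).ι

theorem nX_pos : 0 < nX N := Fintype.card_pos_iff.mpr ⟨(anX N).u₀⟩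

/-- `y` is a root of a monic polynomial of degree `n` with coefficients in `k[j]`. -/
theorem exists_monic_rel {k : Type*} [Field k] (π : RN N →+* k) :
    ∃ P : k[X][X], P.Monic ∧ P.natDegree = nX N ∧
      Polynomial.eval₂ ((aeval (R := k) (jqModC k)).toRingHom) (yUnit k N : LaurentSeries k) P = 0 := by
  letI : Fintype (Idx N) := (anX N).fintype
  have h := RedIndep.map_mem_lifts π N _ (charpoly_Y_x N)
  rw [Polynomial.map_prod] at h
  simp only [Polynomial.map_sub, Polynomial.map_X, Polynomial.map_C] at h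
  obtain ⟨P, hPmap, hPdeg, hPmonic⟩ := Polynomial.lifts_and_natDegree_eq_and_monic h
    (Polynomial.monic_prod_X_sub_C _ _)
  refine ⟨P, hPmonic, ?_, ?_⟩
  · rw [hPdeg, Polynomial.natDegree_finsetProd_X_sub_C_eq_card]
    rfl
  · have hroot : Polynomial.eval
        (coeffMap π (Ycusp N (cosetRep N (idx0 N)) : LaurentSeries (RN N)))
        (P.map ((aeval (R := k) (jt k N)).toRingHom)) = 0 := by
      rw [hPmap, Polynomial.eval_prod]
      exact Finset.prod_eq_zero (Finset.mem_univ (idx0 N)) (by simp)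
    rw [coeffMap_Ycusp_idx0 N π, Polynomial.eval_map] at hroot
    have hcomp : (qExpand k N).comp ((aeval (R := k) (jqModC k)).toRingHom) =
        (aeval (R := k) (jt k N)).toRingHom := by
      apply Polynomial.ringHom_ext
      · intro a
        simp only [RingHom.comp_apply, AlgHom.toRingHom_eq_coe, RingHom.coe_coe, aeval_C]
        exact RedIndep.qExpand_algebraMap N a
      · simp only [RingHom.comp_apply, AlgHom.toRingHom_eq_coe, RingHom.coe_coe, aeval_X]
        rfl
    apply qExpand_injective N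
    rw [Polynomial.hom_eval₂, hcomp, map_zero]
    exact hroot

variable {L : Type*} [Field L]

/-- `L(j) ⊆ L((q))`. -/
abbrev K0 (L : Type*) [Field L] : IntermediateField L (LaurentSeries L) := L⟮jqModC L⟯

theorem aeval_jq_mem_K0 (p : L[X]) : aeval (jqModC L) p ∈ K0 L :=
  IntermediateField.algebra_adjoin_le_adjoin L _ (Polynomial.aeval_mem_adjoin_singleton L _)

/-- the generator `j` of `L(j)` -/
def jK0 (L : Type*) [Field L] : K0 L := ⟨jqModC L, IntermediateField.mem_adjoin_simple_self L _⟩

theorem coe_aeval_jK0 (p : L[X]) :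
    ((aeval (R := L) (jK0 L) p : K0 L) : LaurentSeries L) = aeval (jqModC L) p := by
  have h := Subalgebra.aeval_coe (K0 L).toSubalgebra (jK0 L) p
  exact h.symm

/-- The monic polynomial of degree `n` over `L(j)` with root `y`. -/
theorem exists_monic_K0 (π : RN N →+* L) :
    ∃ P : (K0 L)[X], P.Monic ∧ P.natDegree = nX N ∧
      aeval (yUnit L N : LaurentSeries L) P = 0 := by
  obtain ⟨P, hmonic, hdeg, hroot⟩ := exists_monic_rel N π
  refine ⟨P.map ((aeval (R := L) (jK0 L)).toRingHom), hmonic.map _, ?_, ?_⟩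
  · rw [hmonic.natDegree_map, hdeg]
  · rw [aeval_def, Polynomial.eval₂_map]
    have hcomp : (algebraMap (K0 L) (LaurentSeries L)).comp ((aeval (R := L) (jK0 L)).toRingHom) =
        (aeval (jqModC L)).toRingHom := by
      ext p
      · simp
      · simp only [RingHom.comp_apply, AlgHom.toRingHom_eq_coe, RingHom.coe_coe, aeval_X]
        rfl
    rw [hcomp]
    exact hroot

/-- Elements of `L(j)(y)` are `L(j)`-combinations of `1, y, …, y^(n-1)`. -/
theorem exists_repr_of_mem_adjoin (π : RN N →+* L) {f : LaurentSeries L}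
    (hf : f ∈ (K0 L)⟮(yUnit L N : LaurentSeries L)⟯) :
    ∃ c : Fin (nX N) → K0 L,
      f = ∑ i, (c i : LaurentSeries L) * (yUnit L N : LaurentSeries L) ^ (i : ℕ) := by
  obtain ⟨P, hmonic, hdeg, hroot⟩ := exists_monic_K0 N π
  have halg : IsAlgebraic (K0 L) (yUnit L N : LaurentSeries L) :=
    ⟨P, hmonic.ne_zero, hroot⟩
  have hf' : f ∈ (K0 L)⟮(yUnit L N : LaurentSeries L)⟯.toSubalgebra := hf
  rw [IntermediateField.adjoin_simple_toSubalgebra_of_isAlgebraic halg,
    Algebra.adjoin_singleton_eq_range_aeval] at hf'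
  obtain ⟨g, rfl⟩ := hf'
  have hP1 : P ≠ 1 := by
    intro h
    have := hdeg
    rw [h, natDegree_one] at this
    exact (nX_pos N).ne this
  have hlt : (g %ₘ P).natDegree < nX N := by
    rw [← hdeg]
    exact Polynomial.natDegree_modByMonic_lt g hmonic hP1
  have hg : aeval (yUnit L N : LaurentSeries L) g =
      aeval (yUnit L N : LaurentSeries L) (g %ₘ P) := by
    conv_lhs => rw [← Polynomial.modByMonic_add_div g P]
    rw [map_add, map_mul, hroot, zero_mul, add_zero]
  refine ⟨fun i => (g %ₘ P).coeff i, ?_⟩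
  show aeval (yUnit L N : LaurentSeries L) g = _
  rw [hg, Polynomial.aeval_eq_sum_range' hlt, Finset.sum_range]
  refine Finset.sum_congr rfl fun i _ => ?_
  rw [Algebra.smul_def]
  rfl

/-- Elements of `L(j)` are quotients of polynomials in `j`. -/
theorem exists_frac_of_mem_K0 {c : LaurentSeries L} (hc : c ∈ K0 L) :
    ∃ r s : L[X], aeval (jqModC L) s ≠ 0 ∧ c * aeval (jqModC L) s = aeval (jqModC L) r := by
  obtain ⟨r, s, rfl⟩ := (IntermediateField.mem_adjoin_simple_iff L c).mp hc
  by_cases hs : aeval (jqModC L) s = 0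
  · refine ⟨0, 1, ?_, ?_⟩
    · rw [map_one]
      exact one_ne_zero
    · rw [hs, div_zero, zero_mul, map_zero]
  · exact ⟨r, s, hs, div_mul_cancel₀ _ hs⟩

/-- Elements of `L(j)(y)`: `f * d(j) = Σ_{i<n} p_i(j) y^i`. -/
theorem exists_rel_of_mem_adjoin (π : RN N →+* L) {f : LaurentSeries L}
    (hf : f ∈ (K0 L)⟮(yUnit L N : LaurentSeries L)⟯) :
    ∃ (d : L[X]) (p : Fin (nX N) → L[X]), aeval (jqModC L) d ≠ 0 ∧
      f * aeval (jqModC L) d =
        ∑ i, aeval (jqModC L) (p i) * (yUnit L N : LaurentSeries L) ^ (i : ℕ) := by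
  classical
  obtain ⟨c, rfl⟩ := exists_repr_of_mem_adjoin N π hf
  choose r s hs hrs using fun i => exists_frac_of_mem_K0 (c i).2
  refine ⟨∏ i, s i, fun i => r i * ∏ i' ∈ Finset.univ.erase i, s i', ?_, ?_⟩
  · rw [map_prod]
    exact Finset.prod_ne_zero_iff.mpr fun i _ => hs i
  · rw [Finset.sum_mul]
    refine Finset.sum_congr rfl fun i _ => ?_
    rw [map_prod, ← Finset.mul_prod_erase Finset.univ (fun i' => aeval (jqModC L) (s i'))
      (Finset.mem_univ i), map_mul, map_prod, ← hrs i]
    ring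

variable [Algebra ℚ L]

theorem coeffEmb_jq : coeffEmb L jq = jqModC L := by
  show coeffMap (algebraMap ℚ L) (jqModC ℚ) = jqModC L
  exact coeffMap_jqModC _

theorem coeffEmb_yUnit : coeffEmb L (yUnit ℚ N : LaurentSeries ℚ) = (yUnit L N : LaurentSeries L) :=
  QRed.coeffMap_yUnit _ N

theorem coeffEmb_aeval_jq (p : ℚ[X]) :
    coeffEmb L (aeval jq p) = aeval (jqModC L) (p.map (algebraMap ℚ L)) := by
  show coeffMap (algebraMap ℚ L) (aeval (jqModC ℚ) p) = _
  exact coeffMap_aeval_jq _ p

/-- The base-changed function field is contained in `L(j)(y)`. -/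
theorem laurentBaseChange_le_adjoin :
    laurentBaseChange L (modularFunctionFieldFull N) ≤
      ((K0 L)⟮(yUnit L N : LaurentSeries L)⟯).restrictScalars L := by
  rw [laurentBaseChange, IntermediateField.adjoin_le_iff]
  rintro _ ⟨x, hx, rfl⟩
  show coeffEmb L x ∈ (K0 L)⟮(yUnit L N : LaurentSeries L)⟯
  obtain ⟨b, a, hb, hrel⟩ := span_of_ANData N (anX N) x hx
  have hrel' := congrArg (coeffEmb L) hrel
  rw [map_mul, map_sum, coeffEmb_aeval_jq] at hrel'
  have hb' : aeval (jqModC L) (b.map (algebraMap ℚ L)) ≠ 0 := by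
    intro h
    have h0 := QRed.eq_zero_of_aeval_jqModC_eq_zero L h
    exact hb (Polynomial.map_injective _ (algebraMap ℚ L).injective (by rw [h0, Polynomial.map_zero]))
  have hx' : coeffEmb L x = (∑ i, coeffEmb L (aeval jq (a i) * (yUnit ℚ N : LaurentSeries ℚ) ^ (i : ℕ))) /
      aeval (jqModC L) (b.map (algebraMap ℚ L)) := by
    rw [← hrel', mul_div_assoc, div_self hb', mul_one]
  rw [hx']
  refine div_mem (sum_mem fun i _ => ?_) ?_
  · rw [map_mul, map_pow, coeffEmb_aeval_jq, coeffEmb_yUnit]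
    refine mul_mem ?_ (pow_mem (IntermediateField.mem_adjoin_simple_self _ _) _)
    exact ((K0 L)⟮(yUnit L N : LaurentSeries L)⟯).algebraMap_mem
      ⟨_, aeval_jq_mem_K0 _⟩
  · exact ((K0 L)⟮(yUnit L N : LaurentSeries L)⟯).algebraMap_mem
      ⟨_, aeval_jq_mem_K0 _⟩

/-- **Normal form over `L`.**  Every element of the base-changed function field satisfies
`f * d(j) = Σ_{i<n} p_i(j) y^i` with `d(j) ≠ 0`. -/
theorem exists_rel_of_mem_bar (π : RN N →+* L) {f : LaurentSeries L}
    (hf : f ∈ laurentBaseChange L (modularFunctionFieldFull N)) :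
    ∃ (d : L[X]) (p : Fin (nX N) → L[X]), aeval (jqModC L) d ≠ 0 ∧
      f * aeval (jqModC L) d =
        ∑ i, aeval (jqModC L) (p i) * (yUnit L N : LaurentSeries L) ^ (i : ℕ) :=
  exists_rel_of_mem_adjoin N π (laurentBaseChange_le_adjoin N hf)

end Rel

end Fermat.Agent.S18.RED5669
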