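import Fermat.Agent.S18.RED5669.CharAlg

/-!
# S18 / RED (helper5669): the coefficient ring `ℤ[ζ_N, 1/N]` maps to the valuation ring `A`

For a valuation subring `A` of `ℚ̄` lying over `ℓ ∤ N` we construct a ring homomorphism
`toA : ℤ[ζ_N, 1/N] → A` (via a fixed embedding `ℚ̄ → ℂ`), hence ring homomorphisms to `ℚ̄` and to
the residue field of `A`, in both of which `N` is invertible.
-/

set_option autoImplicit false

noncomputable section

namespace Fermat.Agent.S18.RED5669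

open Fermat.Agent.S28 ModularCurve Polynomial

/-- A fixed embedding `ℚ̄ → ℂ`. -/
def embC : AlgebraicClosure ℚ →+* ℂ :=
  haveI : Algebra.IsAlgebraic ℚ (AlgebraicClosure ℚ) := AlgebraicClosure.isAlgebraic ℚ
  (IsAlgClosed.lift (R := ℚ) (S := AlgebraicClosure ℚ) (M := ℂ)).toRingHom

theorem embC_injective : Function.Injective embC := embC.injective

section

variable {ℓ : ℕ} [Fact ℓ.Prime] (A : ValuationSubring (AlgebraicClosure ℚ))
  (N : ℕ) [NeZero N]

omit [Fact ℓ.Prime] [NeZero N] in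
theorem mem_of_pow_eq_one {x : AlgebraicClosure ℚ} {n : ℕ} (hn : 0 < n) (hx : x ^ n = 1) :
    x ∈ A := by
  rcases A.mem_or_inv_mem x with h | h
  · exact h
  · have e : x = x⁻¹ ^ (n - 1) := by
      have hx0 : x ≠ 0 := by
        rintro rfl
        rw [zero_pow hn.ne'] at hx
        exact zero_ne_one hx
      have h1 : x ^ (n - 1) * x = 1 := by
        rw [← pow_succ, Nat.sub_add_cancel hn, hx]
      rw [inv_pow]
      exact (eq_inv_of_mul_eq_one_right h1)
    rw [e]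
    exact pow_mem h _

include ℓ in
omit [NeZero N] in
theorem valuation_natCast_eq_one (hA : A.LiesOverPrime ℓ) (hℓN : ¬ ℓ ∣ N) :
    A.valuation (N : AlgebraicClosure ℚ) = 1 := by
  have hle : A.valuation (N : AlgebraicClosure ℚ) ≤ 1 :=
    (A.valuation_le_one_iff _).mpr (natCast_mem A N)
  refine le_antisymm hle (not_lt.mp fun hlt => ?_)
  have hℓ : A.valuation (ℓ : AlgebraicClosure ℚ) < 1 := A.mem_nonunits_iff.mp hA
  have hcop : Nat.Coprime N ℓ :=
    (Nat.Coprime.symm ((Nat.Prime.coprime_iff_not_dvd Fact.out).mpr hℓN))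
  have hb : (N : ℤ) * Nat.gcdA N ℓ + (ℓ : ℤ) * Nat.gcdB N ℓ = 1 := by
    have := Nat.gcd_eq_gcd_ab N ℓ
    rw [hcop] at this
    exact_mod_cast this.symm
  have hb' : (N : AlgebraicClosure ℚ) * ((Nat.gcdA N ℓ : ℤ) : AlgebraicClosure ℚ) +
      (ℓ : AlgebraicClosure ℚ) * ((Nat.gcdB N ℓ : ℤ) : AlgebraicClosure ℚ) = 1 := by
    exact_mod_cast hb
  have hint : ∀ z : ℤ, A.valuation (z : AlgebraicClosure ℚ) ≤ 1 := fun z =>
    (A.valuation_le_one_iff _).mpr (intCast_mem A z)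
  have h1 : A.valuation ((N : AlgebraicClosure ℚ) * ((Nat.gcdA N ℓ : ℤ) : AlgebraicClosure ℚ)) < 1 := by
    rw [map_mul]
    exact mul_lt_one_of_lt_of_le hlt (hint _)
  have h2 : A.valuation ((ℓ : AlgebraicClosure ℚ) * ((Nat.gcdB N ℓ : ℤ) : AlgebraicClosure ℚ)) < 1 := by
    rw [map_mul]
    exact mul_lt_one_of_lt_of_le hℓ (hint _)
  have h3 := A.valuation.map_add_lt h1 h2
  rw [hb', map_one] at h3
  exact lt_irrefl _ h3

include ℓ in
omit [NeZero N] in
theorem inv_natCast_mem_A (hA : A.LiesOverPrime ℓ) (hℓN : ¬ ℓ ∣ N) :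
    ((N : AlgebraicClosure ℚ))⁻¹ ∈ A := by
  apply A.mem_of_valuation_le_one
  rw [map_inv₀, valuation_natCast_eq_one A N hA hℓN, inv_one]

include ℓ in
theorem RN_le_map (hA : A.LiesOverPrime ℓ) (hℓN : ¬ ℓ ∣ N) :
    RN N ≤ A.toSubring.map embC := by
  have hN : 0 < N := Nat.pos_of_ne_zero (NeZero.ne N)
  rw [RN, Subring.closure_le]
  rintro x (rfl | rfl)
  · -- the root of unity
    haveI : NeZero ((N : ℕ) : AlgebraicClosure ℚ) := ⟨by exact_mod_cast (NeZero.ne N)⟩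
    obtain ⟨ζ', hζ'⟩ := IsAlgClosed.exists_root (Polynomial.cyclotomic N (AlgebraicClosure ℚ))
      (Polynomial.degree_cyclotomic_pos N _ hN).ne'
    have hprim : IsPrimitiveRoot ζ' N := Polynomial.isRoot_cyclotomic_iff.mp hζ'
    have hprim' : IsPrimitiveRoot (embC ζ') N := hprim.map_of_injective embC_injective
    obtain ⟨i, -, hi⟩ := hprim'.eq_pow_of_pow_eq_one (zetaC_pow_self N)
    refine ⟨ζ' ^ i, ?_, ?_⟩
    · exact pow_mem (mem_of_pow_eq_one A hN hprim.pow_eq_one) i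
    · rw [map_pow, hi]
  · refine ⟨((N : AlgebraicClosure ℚ))⁻¹, inv_natCast_mem_A A N hA hℓN, ?_⟩
    rw [map_inv₀, map_natCast]

/-- The ring homomorphism `ℤ[ζ_N, 1/N] → A`. -/
def toA (hA : A.LiesOverPrime ℓ) (hℓN : ¬ ℓ ∣ N) : RN N →+* A :=
  ((Subring.equivMapOfInjective A.toSubring embC embC_injective).symm :
      A.toSubring.map embC →+* A.toSubring).comp
    (Subring.inclusion (RN_le_map A N hA hℓN))

/-- The ring homomorphism `ℤ[ζ_N, 1/N] → ℚ̄`. -/
def toL (hA : A.LiesOverPrime ℓ) (hℓN : ¬ ℓ ∣ N) : RN N →+* AlgebraicClosure ℚ :=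
  A.subtype.comp (toA A N hA hℓN)

/-- The ring homomorphism `ℤ[ζ_N, 1/N] → k`, `k` the residue field of `A`. -/
def toK (hA : A.LiesOverPrime ℓ) (hℓN : ¬ ℓ ∣ N) : RN N →+* IsLocalRing.ResidueField A :=
  (IsLocalRing.residue A).comp (toA A N hA hℓN)

theorem natCast_ne_zero_L : ((N : ℕ) : AlgebraicClosure ℚ) ≠ 0 := by
  exact_mod_cast (NeZero.ne N)

include ℓ in
omit [NeZero N] in
theorem natCast_ne_zero_K (hA : A.LiesOverPrime ℓ) (hℓN : ¬ ℓ ∣ N) :
    ((N : ℕ) : IsLocalRing.ResidueField A) ≠ 0 := by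
  have h1 : ((N : ℕ) : IsLocalRing.ResidueField A) = IsLocalRing.residue A ((N : ℕ) : A) := by
    rw [map_natCast]
  rw [h1, Ne, IsLocalRing.residue_eq_zero_iff, A.valuation_lt_one_iff]
  push_cast
  rw [valuation_natCast_eq_one A N hA hℓN]
  exact lt_irrefl _

end

end Fermat.Agent.S18.RED5669
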